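import Fermat.Agent.S55.H.U.Defs

/-!
# S55, block [H-U]: `Cl_T = 1` for `T` large.
-/

set_option autoImplicit false

namespace Fermat.Agent.S55.H

open IsDedekindDomain NumberField

theorem TPrincipal.mono {K : Type*} [Field K] [NumberField K]
    {T T' : Set (HeightOneSpectrum (𝓞 K))} (h : TPrincipal K T) (hTT' : T ⊆ T') :
    TPrincipal K T' := fun a => by
  obtain ⟨c, hc⟩ := h a
  exact ⟨c, fun v hv => hc v (fun h' => hv (hTT' h'))⟩

section general

variable {R : Type*} [CommRing R] [IsDedekindDomain R] {K : Type*} [Field K] [Algebra R K]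
  [IsFractionRing R K]

/-- the valuation of a quotient `x / y` in terms of the counts. -/
theorem TClass_valuationOfNeZero_div (w : HeightOneSpectrum R) {x y : R} (hx : x ≠ 0) (hy : y ≠ 0)
    (c : Kˣ) (hc : (c : K) = algebraMap R K x / algebraMap R K y) :
    w.valuationOfNeZero c = Multiplicative.ofAdd
      (((Associates.mk w.asIdeal).count (Associates.mk (Ideal.span {y} : Ideal R)).factors : ℤ) -
        ((Associates.mk w.asIdeal).count (Associates.mk (Ideal.span {x} : Ideal R)).factors : ℤ)) := by
  rw [← WithZero.coe_inj, HeightOneSpectrum.valuationOfNeZero_eq, hc, map_div₀,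
    HeightOneSpectrum.valuation_of_algebraMap, HeightOneSpectrum.valuation_of_algebraMap,
    w.intValuation_if_neg hx, w.intValuation_if_neg hy, ← WithZero.exp_sub]
  change WithZero.exp _ = WithZero.exp _
  congr 1
  ring

/-- additivity of the counts in an equality of products of ideals. -/
theorem TClass_count_eq (w : HeightOneSpectrum R) {A B C D : Ideal R} (hA : A ≠ 0) (hB : B ≠ 0)
    (hC : C ≠ 0) (hD : D ≠ 0) (h : A * B = C * D) :
    (Associates.mk w.asIdeal).count (Associates.mk A).factors +
      (Associates.mk w.asIdeal).count (Associates.mk B).factors =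
    (Associates.mk w.asIdeal).count (Associates.mk C).factors +
      (Associates.mk w.asIdeal).count (Associates.mk D).factors := by
  have hw : Irreducible (Associates.mk w.asIdeal) := w.associates_irreducible
  rw [← Associates.count_mul (Associates.mk_ne_zero.mpr hA) (Associates.mk_ne_zero.mpr hB) hw,
    ← Associates.count_mul (Associates.mk_ne_zero.mpr hC) (Associates.mk_ne_zero.mpr hD) hw,
    Associates.mk_mul_mk, Associates.mk_mul_mk, h]

open scoped Classical in
theorem TClass_count_asIdeal (w v : HeightOneSpectrum R) :
    (Associates.mk w.asIdeal).count (Associates.mk v.asIdeal).factors = if v = w then 1 else 0 := by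
  split_ifs with h
  · subst h
    exact Associates.count_self v.associates_irreducible
  · apply Associates.count_eq_zero_of_ne w.associates_irreducible v.associates_irreducible
    intro h'
    apply h
    have : w.asIdeal = v.asIdeal := by
      have := Associates.mk_eq_mk_iff_associated.mp h'
      exact associated_iff_eq.mp this
    exact (HeightOneSpectrum.ext this).symm

/-- the general statement for a Dedekind domain with finite class group. -/
theorem TClass_exists [Finite (ClassGroup R)] :
    ∃ T0 : Set (HeightOneSpectrum R), T0.Finite ∧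
      ∀ a : HeightOneSpectrum R →₀ ℤ, ∃ c : Kˣ, ∀ v, v ∉ T0 →
        v.valuationOfNeZero c = Multiplicative.ofAdd (a v) := by
  classical
  choose J hJ using (ClassGroup.mk0_surjective (R := R))
  refine ⟨⋃ C : ClassGroup R, {v | v.asIdeal ∣ (J C : Ideal R)}, ?_, ?_⟩
  · exact Set.finite_iUnion fun C => Ideal.finite_factors (nonZeroDivisors.coe_ne_zero (J C))
  · intro a
    induction a using Finsupp.induction_linear with
    | zero => exact ⟨1, fun v _ => by simp⟩
    | add f g hf hg =>
      obtain ⟨c, hc⟩ := hf
      obtain ⟨d, hd⟩ := hg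
      exact ⟨c * d, fun v hv => by rw [map_mul, hc v hv, hd v hv, Finsupp.add_apply, ofAdd_add]⟩
    | single v n =>
      -- the case `n = 1`
      have hv0 : v.asIdeal ∈ nonZeroDivisors (Ideal R) := mem_nonZeroDivisors_of_ne_zero v.ne_bot
      obtain ⟨x, y, hx, hy, hxy⟩ := (ClassGroup.mk0_eq_mk0_iff (I := ⟨v.asIdeal, hv0⟩)
        (J := J (ClassGroup.mk0 ⟨v.asIdeal, hv0⟩))).mp (hJ _).symm
      set J' : Ideal R := (J (ClassGroup.mk0 ⟨v.asIdeal, hv0⟩) : Ideal R) with hJ'
      have hJ0 : J' ≠ 0 := nonZeroDivisors.coe_ne_zero _
      have hxK : algebraMap R K x ≠ 0 := by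
        simpa using (IsFractionRing.injective R K).ne hx
      have hyK : algebraMap R K y ≠ 0 := by
        simpa using (IsFractionRing.injective R K).ne hy
      refine ⟨(Units.mk0 (algebraMap R K x / algebraMap R K y) (div_ne_zero hxK hyK)) ^ n, ?_⟩
      intro w hw
      have hwJ : ¬ w.asIdeal ∣ J' := fun h => hw (Set.mem_iUnion.mpr ⟨_, h⟩)
      have h1 := TClass_count_eq w (A := Ideal.span {x}) (B := v.asIdeal) (C := Ideal.span {y})
        (D := J') (by simpa using hx) v.ne_bot (by simpa using hy) hJ0 hxy
      have h2 : (Associates.mk w.asIdeal).count (Associates.mk J').factors = 0 := by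
        by_contra h3
        exact hwJ ((Associates.count_ne_zero_iff_dvd hJ0 w.irreducible).mp h3)
      rw [h2, TClass_count_asIdeal, add_zero] at h1
      rw [map_zpow, TClass_valuationOfNeZero_div w hx hy _ rfl, ← h1, ← ofAdd_zsmul]
      congr 1
      by_cases hvw : v = w
      · subst hvw
        simp
      · simp [hvw]

end general

/-- There is a finite set `T0` of primes generating the class group. -/
theorem exists_tprincipal (K : Type*) [Field K] [NumberField K] :
    ∃ T0 : Set (HeightOneSpectrum (𝓞 K)), T0.Finite ∧ ∀ T, T0 ⊆ T → TPrincipal K T := by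
  obtain ⟨T0, hfin, h⟩ := TClass_exists (R := 𝓞 K) (K := K)
  exact ⟨T0, hfin, fun T hT => TPrincipal.mono (T := T0) h hT⟩

end Fermat.Agent.S55.H
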