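import Fermat.Agent.S55.H.U.Galois

/-!
# S55, block [H-U]: counting primes above `T` and infinite places.
-/

set_option autoImplicit false

namespace Fermat.Agent.S55.H

open IsDedekindDomain NumberField

variable {k : Type*} {L : Type*} [Field k] [NumberField k] [Field L] [NumberField L] [Algebra k L]

theorem count_fiber_finite (v : HeightOneSpectrum (𝓞 k)) :
    {w : HeightOneSpectrum (𝓞 L) | w.under (𝓞 k) = v}.Finite := by
  have h := above_finite (L := L) (Set.finite_singleton v)
  exact h.subset fun w hw => by simpa [above] using hw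

theorem count_ncard_fiber_eq (v : HeightOneSpectrum (𝓞 k)) :
    {w : HeightOneSpectrum (𝓞 L) | w.under (𝓞 k) = v}.ncard =
      (v.asIdeal.primesOver (𝓞 L)).ncard := by
  have hinj : Function.Injective (fun w : HeightOneSpectrum (𝓞 L) => w.asIdeal) :=
    fun a b hab => HeightOneSpectrum.ext hab
  rw [← Set.ncard_image_of_injective _ hinj]
  congr 1
  ext P
  constructor
  · rintro ⟨w, hw, rfl⟩
    refine ⟨w.isPrime, ⟨?_⟩⟩
    rw [← (show w.under (𝓞 k) = v from hw)]
    rfl
  · rintro ⟨hP, hPv⟩
    have hne : P ≠ ⊥ := Ideal.ne_bot_of_liesOver_of_ne_bot v.ne_bot P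
    refine ⟨⟨P, hP, hne⟩, ?_, rfl⟩
    apply HeightOneSpectrum.ext
    rw [HeightOneSpectrum.under_asIdeal]
    exact hPv.over.symm

/-- in a Galois extension of prime degree a prime has `1` or `p` primes above it. -/
theorem ncard_fiber [IsGalois k L] {p : ℕ} (hp : p.Prime) (hdeg : Module.finrank k L = p)
    (v : HeightOneSpectrum (𝓞 k)) :
    {w : HeightOneSpectrum (𝓞 L) | w.under (𝓞 k) = v}.ncard = 1 ∨
      {w : HeightOneSpectrum (𝓞 L) | w.under (𝓞 k) = v}.ncard = p := by
  rw [count_ncard_fiber_eq]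
  have h := Ideal.ncard_primesOver_mul_ramificationIdxIn_mul_inertiaDegIn v.asIdeal (𝓞 L)
    (L ≃ₐ[k] L)
  rw [IsGalois.card_aut_eq_finrank, hdeg] at h
  exact (Nat.dvd_prime hp).1 ⟨_, h.symm⟩

theorem count_mem_nonsplit_iff {T : Set (HeightOneSpectrum (𝓞 k))} (v : HeightOneSpectrum (𝓞 k)) :
    v ∈ nonsplit L T ↔ v ∈ T ∧ {w : HeightOneSpectrum (𝓞 L) | w.under (𝓞 k) = v}.ncard = 1 := by
  have hfin := count_fiber_finite (L := L) v
  have hne : {w : HeightOneSpectrum (𝓞 L) | w.under (𝓞 k) = v}.Nonempty := exists_under_eq v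
  have hpos : 0 < {w : HeightOneSpectrum (𝓞 L) | w.under (𝓞 k) = v}.ncard :=
    (Set.ncard_pos hfin).2 hne
  constructor
  · rintro ⟨hvT, h⟩
    refine ⟨hvT, ?_⟩
    have : {w : HeightOneSpectrum (𝓞 L) | w.under (𝓞 k) = v}.ncard ≤ 1 :=
      (Set.ncard_le_one_iff hfin).2 fun {a b} ha hb => h a b ha hb
    omega
  · rintro ⟨hvT, h⟩
    exact ⟨hvT, fun w w' hw hw' => (Set.ncard_le_one_iff hfin).1 h.le hw hw'⟩

/-- `#T_L = p s + u`. -/
theorem ncard_above [IsGalois k L] {p : ℕ} (hp : p.Prime) (hdeg : Module.finrank k L = p)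
    {T : Set (HeightOneSpectrum (𝓞 k))} (hT : T.Finite) :
    (above L T).ncard + (p - 1) * (nonsplit L T).ncard = p * T.ncard := by
  induction T, hT using Set.Finite.induction_on with
  | empty =>
    have h1 : above L (∅ : Set (HeightOneSpectrum (𝓞 k))) = ∅ := by
      ext w; simp [above]
    have h2 : nonsplit L (∅ : Set (HeightOneSpectrum (𝓞 k))) = ∅ := by
      ext w; simp [nonsplit]
    simp [h1, h2]
  | @insert v T hv hT ih =>
    have hfib := count_fiber_finite (L := L) v
    have habove : above L (insert v T) =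
        {w : HeightOneSpectrum (𝓞 L) | w.under (𝓞 k) = v} ∪ above L T := by
      ext w; simp [above]
    have hdisj : Disjoint {w : HeightOneSpectrum (𝓞 L) | w.under (𝓞 k) = v} (above L T) := by
      rw [Set.disjoint_left]
      intro w hw hw'
      apply hv
      rw [← (show w.under (𝓞 k) = v from hw)]
      exact hw'
    have hnsfin : (nonsplit L T).Finite := hT.subset fun x hx => hx.1
    have hvns : v ∉ nonsplit L T := fun h => hv h.1
    rw [habove, Set.ncard_union_eq hdisj hfib (above_finite hT), Set.ncard_insert_of_notMem hv hT]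
    have hp1 : 1 ≤ p := hp.one_lt.le
    rcases ncard_fiber hp hdeg v with h1 | h1
    · have hns : nonsplit L (insert v T) = insert v (nonsplit L T) := by
        ext x
        rw [count_mem_nonsplit_iff, Set.mem_insert_iff, Set.mem_insert_iff, count_mem_nonsplit_iff]
        constructor
        · rintro ⟨rfl | hx, hx1⟩
          · exact Or.inl rfl
          · exact Or.inr ⟨hx, hx1⟩
        · rintro (rfl | ⟨hx, hx1⟩)
          · exact ⟨Or.inl rfl, h1⟩
          · exact ⟨Or.inr hx, hx1⟩
      rw [hns, Set.ncard_insert_of_notMem hvns hnsfin, h1]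
      obtain ⟨q, rfl⟩ : ∃ q, p = q + 1 := ⟨p - 1, by omega⟩
      simp only [Nat.add_sub_cancel] at ih ⊢
      nlinarith [ih]
    · have hns : nonsplit L (insert v T) = nonsplit L T := by
        ext x
        rw [count_mem_nonsplit_iff, Set.mem_insert_iff, count_mem_nonsplit_iff]
        constructor
        · rintro ⟨rfl | hx, hx1⟩
          · rw [h1] at hx1
            exact absurd hx1 hp.one_lt.ne'
          · exact ⟨hx, hx1⟩
        · rintro ⟨hx, hx1⟩
          exact ⟨Or.inr hx, hx1⟩
      rw [hns, h1]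
      nlinarith [ih]

theorem isTotallyComplex_of_primitiveRoot {p : ℕ} (hp2 : 2 < p) {ζ : k}
    (hζ : IsPrimitiveRoot ζ p) : IsTotallyComplex k := by
  refine ⟨fun w => ?_⟩
  rw [← InfinitePlace.not_isReal_iff_isComplex]
  intro hw
  have hφ : IsPrimitiveRoot (InfinitePlace.embedding_of_isReal hw ζ) p :=
    hζ.map_of_injective (InfinitePlace.embedding_of_isReal hw).injective
  set x := InfinitePlace.embedding_of_isReal hw ζ with hx
  have h1 : x ^ p = 1 := hφ.pow_eq_one
  have h2 : |x| = 1 := by
    have h3 : |x| ^ p = 1 := by rw [← abs_pow, h1, abs_one]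
    exact (pow_eq_one_iff_of_nonneg (abs_nonneg x) (by omega)).1 h3
  have h4 : x ^ 2 = 1 := by
    rw [← sq_abs, h2, one_pow]
  have h5 : p ∣ 2 := hφ.dvd_of_pow_eq_one 2 h4
  have := Nat.le_of_dvd (by norm_num) h5
  omega

theorem isTotallyComplex_of_algebra [IsTotallyComplex k] : IsTotallyComplex L := by
  refine ⟨fun w => ?_⟩
  rw [← InfinitePlace.not_isReal_iff_isComplex]
  intro hw
  have h1 : (w.comap (algebraMap k L)).IsReal := hw.comap _
  exact InfinitePlace.not_isReal_iff_isComplex.2 (IsTotallyComplex.isComplex _) h1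

theorem count_two_mul_rank (K : Type*) [Field K] [NumberField K] [IsTotallyComplex K] :
    2 * (Units.rank K + 1) = Module.finrank ℚ K := by
  have h1 := InfinitePlace.card_eq_nrRealPlaces_add_nrComplexPlaces K
  rw [IsTotallyComplex.nrRealPlaces_eq_zero, zero_add] at h1
  have h2 : 0 < Fintype.card (InfinitePlace K) := Fintype.card_pos
  rw [IsTotallyComplex.finrank K, Units.rank, ← h1]
  omega

theorem rank_add_one_of_isTotallyComplex [IsTotallyComplex k] :
    Units.rank L + 1 = Module.finrank k L * (Units.rank k + 1) := by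
  have : IsTotallyComplex L := isTotallyComplex_of_algebra (k := k)
  have h1 := count_two_mul_rank L
  have h2 := count_two_mul_rank k
  have h3 := Module.finrank_mul_finrank ℚ k L
  rw [← h1, ← h2] at h3
  nlinarith [h3]

end Fermat.Agent.S55.H
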