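import Mathlib

/-!
# S55, block [H-U]: `T`-units and the first inequality.  Definitions.
-/

set_option autoImplicit false

namespace Fermat.Agent.S55.H

open IsDedekindDomain NumberField

/-- `Cl_T(K) = 0`: every finitely supported family of exponents outside `T` is realised by an
element of `Kˣ`. -/
def TPrincipal (K : Type*) [Field K] [NumberField K] (T : Set (HeightOneSpectrum (𝓞 K))) : Prop :=
  ∀ a : HeightOneSpectrum (𝓞 K) →₀ ℤ, ∃ c : Kˣ, ∀ v, v ∉ T →
    v.valuationOfNeZero c = Multiplicative.ofAdd (a v)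

variable {k : Type*} (L : Type*) [Field k] [NumberField k] [Field L] [NumberField L] [Algebra k L]

/-- the primes of `L` above the primes in `T`. -/
def above (T : Set (HeightOneSpectrum (𝓞 k))) : Set (HeightOneSpectrum (𝓞 L)) :=
  {w | w.under (𝓞 k) ∈ T}

/-- the primes in `T` with exactly one prime of `L` above them. -/
def nonsplit (T : Set (HeightOneSpectrum (𝓞 k))) : Set (HeightOneSpectrum (𝓞 k)) :=
  {v | v ∈ T ∧ ∀ w w' : HeightOneSpectrum (𝓞 L), w.under (𝓞 k) = v → w'.under (𝓞 k) = v → w = w'}

/-- `L/k` is unramified outside `T`. -/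
def UnramOutside (T : Set (HeightOneSpectrum (𝓞 k))) : Prop :=
  ∀ w : HeightOneSpectrum (𝓞 L), w.under (𝓞 k) ∉ T →
    (w.under (𝓞 k)).asIdeal.ramificationIdx' w.asIdeal = 1

variable (k) in
/-- the norm on units. -/
noncomputable abbrev normU : Lˣ →* kˣ := Units.map (Algebra.norm k : L →* k)

end Fermat.Agent.S55.H
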