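import Fermat.Agent.S55.H.U.H1
import Fermat.Agent.S55.H.U.Count
import Fermat.Agent.S55.H.TUnit
import Fermat.Agent.S55.Lib.HerbrandRank

/-!
# S55, block [H-U]: the first inequality for `T`-units.
-/

set_option autoImplicit false

namespace Fermat.Agent.S55.H

open IsDedekindDomain NumberField Fermat.Agent.S55.Herbrand

section general

variable {k : Type*} {L : Type*} [Field k] [NumberField k] [Field L] [NumberField L] [Algebra k L]

/-- Set version of the finiteness of `T`-units. -/
theorem firstIneq_finite (T : Set (HeightOneSpectrum (𝓞 k))) (hT : T.Finite) :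
    Module.Finite ℤ (Additive (T.unit k)) := by
  have h := tunit_finite k hT.toFinset
  rwa [TUnit, hT.coe_toFinset] at h

/-- Set version of Dirichlet's `T`-unit theorem. -/
theorem firstIneq_finrank (T : Set (HeightOneSpectrum (𝓞 k))) (hT : T.Finite) :
    Module.finrank ℤ (Additive (T.unit k)) = Units.rank k + T.ncard := by
  have h := finrank_tunit k hT.toFinset
  rw [TUnit, hT.coe_toFinset] at h
  rw [h, Set.ncard_eq_toFinset_card T hT]

/-- `σ` acting on `E_L`. -/
noncomputable def sigE (T : Set (HeightOneSpectrum (𝓞 k))) (σ : L ≃ₐ[k] L) :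
    (above L T).unit L →* (above L T).unit L :=
  ((Units.map (σ : L →* L)).comp ((above L T).unit L).subtype).codRestrict _
    (fun x => map_mem_unit T σ x.2)

/-- the inclusion `E_k → E_L`. -/
noncomputable def incE (L : Type*) [Field L] [NumberField L] [Algebra k L]
    (T : Set (HeightOneSpectrum (𝓞 k))) : T.unit k →* (above L T).unit L :=
  ((Units.map (algebraMap k L : k →* L)).comp (T.unit k).subtype).codRestrict _
    (fun x => (algebraMap_mem_unit_iff T x.1).2 x.2)

theorem incE_injective (T : Set (HeightOneSpectrum (𝓞 k))) : Function.Injective (incE L T) := by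
  intro x y h
  have h1 : algebraMap k L ((x : kˣ) : k) = algebraMap k L ((y : kˣ) : k) :=
    congrArg (fun z : (above L T).unit L => ((z : Lˣ) : L)) h
  exact Subtype.ext (Units.ext ((algebraMap k L).injective h1))

theorem sigE_coe (T : Set (HeightOneSpectrum (𝓞 k))) (σ : L ≃ₐ[k] L) (x : (above L T).unit L) :
    (((sigE T σ x : (above L T).unit L) : Lˣ) : L) = σ ((x : Lˣ) : L) := rfl

theorem incE_coe (T : Set (HeightOneSpectrum (𝓞 k))) (x : T.unit k) :
    (((incE L T x : (above L T).unit L) : Lˣ) : L) = algebraMap k L ((x : kˣ) : k) := rfl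

theorem sigE_iterate_coe (T : Set (HeightOneSpectrum (𝓞 k))) (σ : L ≃ₐ[k] L) (n : ℕ)
    (x : (above L T).unit L) :
    ((((sigE T σ)^[n] x : (above L T).unit L) : Lˣ) : L) = (σ ^ n) ((x : Lˣ) : L) := by
  induction n with
  | zero => simp
  | succ n ih =>
    rw [Function.iterate_succ_apply', sigE_coe, ih, pow_succ', AlgEquiv.mul_apply]

/-- the product over a cyclic group. -/
theorem firstIneq_prod_pow [IsGalois k L] {p : ℕ} (hdeg : Module.finrank k L = p)
    (σ : L ≃ₐ[k] L) (hσ : ∀ τ, τ ∈ Subgroup.zpowers σ) (x : L) :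
    ∏ i ∈ Finset.range p, (σ ^ i) x = algebraMap k L (Algebra.norm k x) := by
  classical
  have hord : orderOf σ = p := by
    rw [orderOf_eq_card_of_forall_mem_zpowers hσ, IsGalois.card_aut_eq_finrank, hdeg]
  rw [Algebra.norm_eq_prod_automorphisms]
  have himg : Finset.image (fun i => σ ^ i) (Finset.range p) = Finset.univ := by
    rw [← hord, Finset.eq_univ_iff_forall]
    intro τ
    rw [image_range_orderOf]
    simpa using hσ τ
  rw [← himg, Finset.prod_image]
  intro i hi j hj hij
  rw [← hord] at hi hj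
  exact pow_injOn_Iio_orderOf (by simpa using hi) (by simpa using hj) hij

/-- `σ` acting on `Additive E_L`. -/
noncomputable def sigA (T : Set (HeightOneSpectrum (𝓞 k))) (σ : L ≃ₐ[k] L) :
    Additive ((above L T).unit L) →+ Additive ((above L T).unit L) :=
  MonoidHom.toAdditive (sigE T σ)

theorem sigA_iterate (T : Set (HeightOneSpectrum (𝓞 k))) (σ : L ≃ₐ[k] L) (n : ℕ)
    (a : Additive ((above L T).unit L)) :
    (sigA T σ)^[n] a = Additive.ofMul ((sigE T σ)^[n] a.toMul) := by
  induction n with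
  | zero => rfl
  | succ n ih =>
    rw [Function.iterate_succ_apply', Function.iterate_succ_apply', ih]
    rfl

theorem sigA_iterate_card [IsGalois k L] {p : ℕ} (hdeg : Module.finrank k L = p)
    (T : Set (HeightOneSpectrum (𝓞 k))) (σ : L ≃ₐ[k] L)
    (a : Additive ((above L T).unit L)) : (sigA T σ)^[p] a = a := by
  rw [sigA_iterate]
  have h1 : σ ^ p = 1 := by
    rw [← hdeg, ← IsGalois.card_aut_eq_finrank]
    exact pow_card_eq_one'
  have h2 : (sigE T σ)^[p] a.toMul = a.toMul := by
    apply Subtype.ext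
    apply Units.ext
    rw [sigE_iterate_coe, h1]
    rfl
  rw [h2]
  rfl

/-- `N E_L` as a subgroup of `E_k`. -/
noncomputable def normSub (L : Type*) [Field L] [NumberField L] [Algebra k L]
    (T : Set (HeightOneSpectrum (𝓞 k))) : Subgroup (T.unit k) :=
  (((above L T).unit L).map (normU k L)).subgroupOf (T.unit k)

theorem ker_Dop_sigA [IsGalois k L] (T : Set (HeightOneSpectrum (𝓞 k))) (σ : L ≃ₐ[k] L)
    (hσ : ∀ τ, τ ∈ Subgroup.zpowers σ) :
    (Dop (sigA T σ)).ker = Subgroup.toAddSubgroup ((⊤ : Subgroup (T.unit k)).map (incE L T)) := by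
  ext a
  rw [mem_ker_Dop]
  constructor
  · intro h
    have h1 : σ (((a.toMul : (above L T).unit L) : Lˣ) : L) = ((a.toMul : (above L T).unit L) : Lˣ) := by
      have := congrArg (fun z : Additive ((above L T).unit L) => ((z.toMul : Lˣ) : L)) h
      exact this
    have h2 : ∀ τ : L ≃ₐ[k] L, τ (((a.toMul : (above L T).unit L) : Lˣ) : L)
        = ((a.toMul : (above L T).unit L) : Lˣ) := by
      intro τ
      obtain ⟨n, rfl⟩ := Subgroup.mem_zpowers_iff.1 (hσ τ)
      have h3 : σ ∈ MulAction.stabilizer (L ≃ₐ[k] L) (((a.toMul : (above L T).unit L) : Lˣ) : L) := h1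
      exact (zpow_mem h3 n : _)
    obtain ⟨y, hy, hyx⟩ := exists_of_fixed T a.toMul.2 h2
    refine ⟨⟨y, hy⟩, trivial, ?_⟩
    apply Subtype.ext
    exact hyx
  · rintro ⟨y, -, hy⟩
    have hy' : a = Additive.ofMul (incE L T y) := by rw [hy]; rfl
    rw [hy']
    change Additive.ofMul (sigE T σ (incE L T y)) = _
    congr 1
    apply Subtype.ext
    apply Units.ext
    rw [sigE_coe, incE_coe, AlgEquiv.commutes]

theorem Nop_sigA [IsGalois k L] {p : ℕ} (hdeg : Module.finrank k L = p)
    (T : Set (HeightOneSpectrum (𝓞 k))) (σ : L ≃ₐ[k] L)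
    (hσ : ∀ τ, τ ∈ Subgroup.zpowers σ) (a : Additive ((above L T).unit L)) :
    Nop (sigA T σ) p a
      = Additive.ofMul (incE L T ⟨normU k L (a.toMul : Lˣ), normU_mem_unit T a.toMul.2⟩) := by
  rw [Nop_apply]
  simp_rw [sigA_iterate]
  rw [← ofMul_prod]
  congr 1
  apply Subtype.ext
  apply Units.ext
  rw [incE_coe]
  have := firstIneq_prod_pow hdeg σ hσ (((a.toMul : (above L T).unit L) : Lˣ) : L)
  simp only [Units.coe_map]
  rw [← this]
  push_cast
  refine Finset.prod_congr rfl (fun i _ => ?_)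
  rw [sigE_iterate_coe]

theorem range_Nop_sigA [IsGalois k L] {p : ℕ} (hdeg : Module.finrank k L = p)
    (T : Set (HeightOneSpectrum (𝓞 k))) (σ : L ≃ₐ[k] L)
    (hσ : ∀ τ, τ ∈ Subgroup.zpowers σ) :
    (Nop (sigA T σ) p).range = Subgroup.toAddSubgroup ((normSub L T).map (incE L T)) := by
  ext a
  constructor
  · rintro ⟨b, rfl⟩
    rw [Nop_sigA hdeg T σ hσ]
    refine ⟨⟨normU k L (b.toMul : Lˣ), normU_mem_unit T b.toMul.2⟩, ?_, rfl⟩
    exact ⟨b.toMul, b.toMul.2, rfl⟩
  · rintro ⟨y, ⟨x, hx, hxy⟩, hy⟩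
    refine ⟨Additive.ofMul ⟨x, hx⟩, ?_⟩
    rw [Nop_sigA hdeg T σ hσ]
    have : a = Additive.ofMul (incE L T y) := by rw [hy]; rfl
    rw [this]
    congr 2
    apply Subtype.ext
    exact hxy

theorem finrank_ker_Dop_sigA [IsGalois k L] (T : Set (HeightOneSpectrum (𝓞 k))) (hT : T.Finite)
    (σ : L ≃ₐ[k] L) (hσ : ∀ τ, τ ∈ Subgroup.zpowers σ) :
    Module.finrank ℤ (Dop (sigA T σ)).ker = Units.rank k + T.ncard := by
  rw [← firstIneq_finrank T hT]
  let f : Additive (T.unit k) →+ Additive ((above L T).unit L) := MonoidHom.toAdditive (incE L T)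
  have hf : Function.Injective f := incE_injective T
  have hrange : f.range = (Dop (sigA T σ)).ker := by
    rw [ker_Dop_sigA T σ hσ]
    ext a
    constructor
    · rintro ⟨y, rfl⟩
      exact ⟨y.toMul, trivial, rfl⟩
    · rintro ⟨y, -, hy⟩
      exact ⟨Additive.ofMul y, hy⟩
  rw [← hrange]
  exact ((AddMonoidHom.ofInjective hf).toIntLinearEquiv.finrank_eq).symm

end general

/-- **First inequality** for `T`-units: `[E_k : N E_L] * p = p ^ u`, `u` the number of primes
in `T` which do not split in `L`.  (Universe `0` because of Mathlib's Hilbert 90.) -/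
theorem first_inequality {k L : Type} [Field k] [NumberField k] [Field L] [NumberField L]
    [Algebra k L] [IsGalois k L] {p : ℕ} (hp : p.Prime) (hdeg : Module.finrank k L = p)
    [IsTotallyComplex k] (T : Set (HeightOneSpectrum (𝓞 k))) (hT : T.Finite)
    (hram : UnramOutside L T) (hcl : TPrincipal k T) :
    (((above L T).unit L).map (normU k L)).relIndex (T.unit k) * p =
      p ^ (nonsplit L T).ncard := by
  classical
  have : Fact p.Prime := ⟨hp⟩
  -- a generator of the Galois group
  have hcard : Nat.card (L ≃ₐ[k] L) = p := by rw [IsGalois.card_aut_eq_finrank, hdeg]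
  have hcyc : IsCyclic (L ≃ₐ[k] L) := isCyclic_of_prime_card hcard
  obtain ⟨σ, hσ⟩ := hcyc.exists_generator
  have hfinL : Module.Finite ℤ (Additive ((above L T).unit L)) :=
    firstIneq_finite _ (above_finite hT)
  have hit := sigA_iterate_card hdeg T σ
  -- ranks
  set u := (nonsplit L T).ncard with hu
  set a := Units.rank k + T.ncard with ha
  have hule : u ≤ T.ncard := Set.ncard_le_ncard (fun v hv => hv.1) hT
  have hrk : Units.rank L + 1 = p * (Units.rank k + 1) := by
    rw [rank_add_one_of_isTotallyComplex (k := k) (L := L), hdeg]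
  have hab := ncard_above (L := L) hp hdeg hT
  have hA : Module.finrank ℤ (Additive ((above L T).unit L)) = a + (p - 1) * (a + 1 - u) := by
    rw [firstIneq_finrank _ (above_finite hT)]
    obtain ⟨m, rfl⟩ : ∃ m, p = m + 1 := ⟨p - 1, (Nat.sub_add_cancel hp.one_le).symm⟩
    simp only [Nat.add_sub_cancel] at hab ⊢
    obtain ⟨d, hd⟩ : ∃ d, T.ncard = u + d := ⟨T.ncard - u, by omega⟩
    have h1 : a + 1 - u = Units.rank k + d + 1 := by omega
    rw [h1, ha, hd]
    rw [← hu, hd] at hab
    nlinarith [hab, hrk]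
  have key := h0_mul_pow_eq hit (finrank_ker_Dop_sigA T hT σ hσ) hA
  -- `H^1 = 0`
  have h1 : (cyc (sigA T σ) p hit).h1 = 1 := by
    rw [cyc_h1, AddSubgroup.relIndex_eq_one]
    intro x hx
    rw [AddMonoidHom.mem_ker, Nop_sigA hdeg T σ hσ] at hx
    have hx1 : incE L T ⟨normU k L (x.toMul : Lˣ), normU_mem_unit T x.toMul.2⟩ = incE L T 1 := by
      rw [map_one]; exact hx
    have hx2 : normU k L (x.toMul : Lˣ) = 1 := congrArg Subtype.val (incE_injective T hx1)
    obtain ⟨η, hη, hηx⟩ := hilbert90_tunit σ hσ T hram hcl x.toMul.2 hx2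
    refine ⟨Additive.ofMul ⟨η, hη⟩, ?_⟩
    rw [Dop_apply]
    change Additive.ofMul (sigE T σ ⟨η, hη⟩ / ⟨η, hη⟩) = x
    have : sigE T σ ⟨η, hη⟩ / ⟨η, hη⟩ = x.toMul := by
      apply Subtype.ext
      rw [hηx]
      rfl
    rw [this]
    rfl
  -- `H^0`
  have h0 : (cyc (sigA T σ) p hit).h0
      = (((above L T).unit L).map (normU k L)).relIndex (T.unit k) := by
    rw [cyc_h0, ker_Dop_sigA T σ hσ, range_Nop_sigA hdeg T σ hσ, Subgroup.relIndex_toAddSubgroup,
      Subgroup.relIndex_map_map_of_injective _ _ (incE_injective T), Subgroup.relIndex_top_right]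
    rfl
  rw [h1, h0, mul_one] at key
  -- arithmetic
  have hau : a + 1 - u = (a - u) + 1 := by omega
  have hau2 : a = u + (a - u) := by omega
  rw [hau, pow_succ] at key
  have hpos : 0 < p ^ (a - u) := pow_pos hp.pos _
  apply Nat.eq_of_mul_eq_mul_right hpos
  calc _ = (((above L T).unit L).map (normU k L)).relIndex (T.unit k) * (p ^ (a - u) * p) := by ring
    _ = p ^ a := key
    _ = p ^ u * p ^ (a - u) := by rw [← pow_add, ← hau2]

end Fermat.Agent.S55.H
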