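import Fermat.Agent.S55.H.U.Defs

/-!
# S55, block [H-U]: Galois action on `T`-units.
-/

set_option autoImplicit false

namespace Fermat.Agent.S55.H

open IsDedekindDomain NumberField

variable {k : Type*} (L : Type*) [Field k] [NumberField k] [Field L] [NumberField L] [Algebra k L]

/-- the prime `σ⁻¹ w`. -/
noncomputable def galComap (σ : L ≃ₐ[k] L) (w : HeightOneSpectrum (𝓞 L)) :
    HeightOneSpectrum (𝓞 L) :=
  HeightOneSpectrum.comap (RingOfIntegers.mapRingEquiv σ.toRingEquiv : 𝓞 L →+* 𝓞 L)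
    (RingOfIntegers.mapRingEquiv σ.toRingEquiv).surjective w

variable {L}

theorem galois_mem_galComap_pow (σ : L ≃ₐ[k] L) (w : HeightOneSpectrum (𝓞 L)) (a : 𝓞 L) (n : ℕ) :
    a ∈ (galComap L σ w).asIdeal ^ n ↔
      RingOfIntegers.mapRingEquiv σ.toRingEquiv a ∈ w.asIdeal ^ n := by
  have h1 : (galComap L σ w).asIdeal =
      Ideal.map (RingOfIntegers.mapRingEquiv σ.toRingEquiv).symm w.asIdeal := by
    rw [Ideal.map_symm]; rfl
  rw [h1, ← Ideal.map_pow, Ideal.map_symm, Ideal.mem_comap]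

theorem galois_intValuation_galComap (σ : L ≃ₐ[k] L) (w : HeightOneSpectrum (𝓞 L)) (a : 𝓞 L) :
    (galComap L σ w).intValuation a =
      w.intValuation (RingOfIntegers.mapRingEquiv σ.toRingEquiv a) := by
  by_cases ha : a = 0
  · simp [ha]
  have ha' : RingOfIntegers.mapRingEquiv σ.toRingEquiv a ≠ 0 := by
    simpa using ha
  have key : ∀ n : ℕ, (galComap L σ w).intValuation a ≤ WithZero.exp (-(n : ℤ)) ↔
      w.intValuation (RingOfIntegers.mapRingEquiv σ.toRingEquiv a) ≤ WithZero.exp (-(n : ℤ)) := by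
    intro n
    rw [HeightOneSpectrum.intValuation_le_pow_iff_mem, HeightOneSpectrum.intValuation_le_pow_iff_mem,
      galois_mem_galComap_pow]
  apply le_antisymm
  · have h := HeightOneSpectrum.intValuation_eq_exp_neg_multiplicity w ha'
    rw [h]
    exact (key _).2 h.le
  · have h := HeightOneSpectrum.intValuation_eq_exp_neg_multiplicity (galComap L σ w) ha
    rw [h]
    exact (key _).1 h.le

theorem valuation_galComap (σ : L ≃ₐ[k] L) (w : HeightOneSpectrum (𝓞 L)) (x : L) :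
    (galComap L σ w).valuation L x = w.valuation L (σ x) := by
  obtain ⟨a, b, _, rfl⟩ := IsFractionRing.div_surjective (A := 𝓞 L) x
  have h : ∀ c : 𝓞 L, σ (algebraMap (𝓞 L) L c) =
      algebraMap (𝓞 L) L (RingOfIntegers.mapRingEquiv σ.toRingEquiv c) := fun c => rfl
  rw [map_div₀, map_div₀, map_div₀, h, h, HeightOneSpectrum.valuation_of_algebraMap,
    HeightOneSpectrum.valuation_of_algebraMap, HeightOneSpectrum.valuation_of_algebraMap,
    HeightOneSpectrum.valuation_of_algebraMap, galois_intValuation_galComap,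
    galois_intValuation_galComap]

theorem under_galComap (σ : L ≃ₐ[k] L) (w : HeightOneSpectrum (𝓞 L)) :
    (galComap L σ w).under (𝓞 k) = w.under (𝓞 k) := by
  apply HeightOneSpectrum.ext
  ext x
  rw [HeightOneSpectrum.under_asIdeal, HeightOneSpectrum.under_asIdeal, Ideal.mem_comap,
    Ideal.mem_comap]
  change RingOfIntegers.mapRingEquiv σ.toRingEquiv (algebraMap (𝓞 k) (𝓞 L) x) ∈ w.asIdeal ↔ _
  have : RingOfIntegers.mapRingEquiv σ.toRingEquiv (algebraMap (𝓞 k) (𝓞 L) x) =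
      algebraMap (𝓞 k) (𝓞 L) x := by
    apply RingOfIntegers.ext
    rw [RingOfIntegers.mapRingEquiv_apply]
    exact σ.commutes (x : k)
  rw [this]

/-- transitivity of the Galois action on the primes above a given prime. -/
theorem exists_galComap_eq [IsGalois k L] (w w' : HeightOneSpectrum (𝓞 L))
    (h : w.under (𝓞 k) = w'.under (𝓞 k)) : ∃ σ : L ≃ₐ[k] L, galComap L σ w = w' := by
  have : w.asIdeal.LiesOver (w.under (𝓞 k)).asIdeal := ⟨rfl⟩
  have : w'.asIdeal.LiesOver (w.under (𝓞 k)).asIdeal := ⟨by rw [h]; rfl⟩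
  obtain ⟨τ, hτ⟩ := Ideal.exists_smul_eq_of_isGaloisGroup (w.under (𝓞 k)).asIdeal
    w.asIdeal w'.asIdeal (L ≃ₐ[k] L)
  refine ⟨τ⁻¹, ?_⟩
  apply HeightOneSpectrum.ext
  rw [← hτ]
  ext x
  rw [Ideal.mem_pointwise_smul_iff_inv_smul_mem]
  rfl

theorem exists_under_eq (v : HeightOneSpectrum (𝓞 k)) :
    ∃ w : HeightOneSpectrum (𝓞 L), w.under (𝓞 k) = v := by
  have := v.isPrime.isMaximal v.ne_bot
  obtain ⟨Q, hQ, hQv⟩ := Ideal.exists_maximal_ideal_liesOver_of_isIntegral (S := 𝓞 L) v.asIdeal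
  have hne : Q ≠ ⊥ := Ideal.ne_bot_of_liesOver_of_ne_bot v.ne_bot Q
  refine ⟨⟨Q, hQ.isPrime, hne⟩, ?_⟩
  apply HeightOneSpectrum.ext
  rw [HeightOneSpectrum.under_asIdeal]
  exact hQv.over.symm

theorem above_finite {T : Set (HeightOneSpectrum (𝓞 k))} (hT : T.Finite) :
    (above L T).Finite := by
  have h1 : above L T = ⋃ v ∈ T, {w : HeightOneSpectrum (𝓞 L) | w.under (𝓞 k) = v} := by
    ext w
    simp [above]
  rw [h1]
  refine hT.biUnion fun v _ => ?_
  have := v.isPrime.isMaximal v.ne_bot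
  have hfin := IsDedekindDomain.primesOver_finite v.asIdeal (𝓞 L)
  refine Set.Finite.of_finite_image (f := fun w : HeightOneSpectrum (𝓞 L) => w.asIdeal)
    (hfin.subset ?_) (fun a _ b _ hab => HeightOneSpectrum.ext hab)
  rintro _ ⟨w, hw, rfl⟩
  refine ⟨w.isPrime, ⟨?_⟩⟩
  rw [← (show w.under (𝓞 k) = v from hw)]
  rfl

theorem map_mem_unit (T : Set (HeightOneSpectrum (𝓞 k))) (σ : L ≃ₐ[k] L) {x : Lˣ}
    (hx : x ∈ (above L T).unit L) :
    Units.map (σ : L →* L) x ∈ (above L T).unit L := by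
  intro w hw
  have h1 : galComap L σ w ∉ above L T := by
    intro h
    apply hw
    change w.under (𝓞 k) ∈ T
    rw [← under_galComap σ w]
    exact h
  have h2 := hx (galComap L σ w) h1
  rw [valuation_galComap] at h2
  exact h2

theorem algebraMap_mem_unit_iff (T : Set (HeightOneSpectrum (𝓞 k))) (x : kˣ) :
    Units.map (algebraMap k L : k →* L) x ∈ (above L T).unit L ↔ x ∈ T.unit k := by
  have key : ∀ w : HeightOneSpectrum (𝓞 L),
      w.valuation L (algebraMap k L (x : k)) = 1 ↔ (w.under (𝓞 k)).valuation k (x : k) = 1 := by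
    intro w
    have : w.asIdeal.LiesOver (w.under (𝓞 k)).asIdeal := ⟨rfl⟩
    rw [← HeightOneSpectrum.valuation_liesOver L (w.under (𝓞 k)) w (x : k)]
    have he : (w.under (𝓞 k)).asIdeal.ramificationIdx' w.asIdeal ≠ 0 :=
      Ideal.IsDedekindDomain.ramificationIdx'_ne_zero_of_liesOver w.asIdeal (w.under (𝓞 k)).ne_bot
    exact pow_eq_one_iff_of_nonneg zero_le he
  constructor
  · intro h v hv
    obtain ⟨w, rfl⟩ := exists_under_eq (L := L) v
    exact (key w).1 (h w hv)
  · intro h w hw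
    exact (key w).2 (h (w.under (𝓞 k)) hw)

theorem exists_of_fixed [IsGalois k L] (T : Set (HeightOneSpectrum (𝓞 k))) {x : Lˣ}
    (hx : x ∈ (above L T).unit L) (hfix : ∀ σ : L ≃ₐ[k] L, σ (x : L) = x) :
    ∃ y ∈ T.unit k, Units.map (algebraMap k L : k →* L) y = x := by
  have h1 : (x : L) ∈ (⊥ : IntermediateField k L) := (IsGalois.mem_bot_iff_fixed (x : L)).2 hfix
  obtain ⟨y, hy⟩ := IntermediateField.mem_bot.1 h1
  have hy0 : y ≠ 0 := by
    rintro rfl
    rw [map_zero] at hy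
    exact x.ne_zero hy.symm
  have hxy : Units.map (algebraMap k L : k →* L) (Units.mk0 y hy0) = x := by
    ext
    simpa using hy
  refine ⟨Units.mk0 y hy0, ?_, hxy⟩
  rw [← algebraMap_mem_unit_iff (L := L), hxy]
  exact hx

theorem normU_mem_unit [IsGalois k L] (T : Set (HeightOneSpectrum (𝓞 k))) {x : Lˣ}
    (hx : x ∈ (above L T).unit L) : normU k L x ∈ T.unit k := by
  classical
  rw [← algebraMap_mem_unit_iff (L := L)]
  have h1 : Units.map (algebraMap k L : k →* L) (normU k L x) =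
      ∏ σ : L ≃ₐ[k] L, Units.map (σ : L →* L) x := by
    ext
    simp only [Units.coe_map, MonoidHom.coe_coe, Units.coe_prod]
    exact Algebra.norm_eq_prod_automorphisms k (x : L)
  rw [h1]
  exact Subgroup.prod_mem _ fun σ _ => map_mem_unit T σ hx

end Fermat.Agent.S55.H
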