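import Fermat.Agent.S55.H.U.Galois

/-!
# S55, block [H-U]: `H^1(G, E_L) = 0`.
-/

set_option autoImplicit false

namespace Fermat.Agent.S55.H

open IsDedekindDomain NumberField

variable {k : Type*} {L : Type*} [Field k] [NumberField k] [Field L] [NumberField L] [Algebra k L]

/-- only finitely many primes have nontrivial valuation at a nonzero element. -/
theorem h1_finite_valuation_ne_one {K : Type*} [Field K] [NumberField K] (y : Kˣ) :
    {v : HeightOneSpectrum (𝓞 K) | v.valuation K (y : K) ≠ 1}.Finite := by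
  refine ((HeightOneSpectrum.Support.finite (𝓞 K) (y : K)).union
    (HeightOneSpectrum.Support.finite (𝓞 K) ((y⁻¹ : Kˣ) : K))).subset ?_
  intro v hv
  rcases lt_or_gt_of_ne hv with h | h
  · right
    change 1 < v.valuation K ((y⁻¹ : Kˣ) : K)
    rw [Units.val_inv_eq_inv_val, map_inv₀]
    exact (one_lt_inv₀ (by simp [zero_lt_iff])).2 h
  · left
    exact h

/-- the set of `τ` with `τ y / y ∈ E_L` is a subgroup. -/
def h1Sub (T : Set (HeightOneSpectrum (𝓞 k))) (y : Lˣ) : Subgroup (L ≃ₐ[k] L) where
  carrier := {τ | Units.map (τ : L →* L) y / y ∈ (above L T).unit L}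
  one_mem' := by
    have : Units.map (((1 : L ≃ₐ[k] L) : L ≃ₐ[k] L) : L →* L) y = y := by
      ext; simp
    simp [this]
  mul_mem' := by
    intro a b ha hb
    have h1 := map_mem_unit T a hb
    have h2 : Units.map ((a * b : L ≃ₐ[k] L) : L →* L) y / y
        = Units.map (a : L →* L) (Units.map (b : L →* L) y / y) * (Units.map (a : L →* L) y / y) := by
      ext; simp
    simp only [Set.mem_ofPred_eq] at ha hb ⊢
    rw [h2]
    exact mul_mem h1 ha
  inv_mem' := by
    intro a ha
    have h1 := map_mem_unit T a⁻¹ (inv_mem ha)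
    have h2 : Units.map ((a⁻¹ : L ≃ₐ[k] L) : L →* L) y / y
        = Units.map ((a⁻¹ : L ≃ₐ[k] L) : L →* L) (Units.map (a : L →* L) y / y)⁻¹ := by
      ext
      simp
    simp only [Set.mem_ofPred_eq] at ha ⊢
    rw [h2]
    exact h1

/-- Hilbert 90 for `T`-units: `T` contains the ramified primes and `Cl_T(k) = 1`.
(Universe `0` because of Mathlib's Hilbert 90.) -/
theorem hilbert90_tunit {k L : Type} [Field k] [NumberField k] [Field L] [NumberField L]
    [Algebra k L] [IsGalois k L] (σ : L ≃ₐ[k] L) (hσ : ∀ τ, τ ∈ Subgroup.zpowers σ)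
    (T : Set (HeightOneSpectrum (𝓞 k))) (hram : UnramOutside L T) (hcl : TPrincipal k T)
    {ε : Lˣ} (hε : ε ∈ (above L T).unit L) (hN : normU k L ε = 1) :
    ∃ η ∈ (above L T).unit L, ε = Units.map (σ : L →* L) η / η := by
  classical
  have : IsCyclic (L ≃ₐ[k] L) := ⟨σ, hσ⟩
  have hN' : Algebra.norm k (ε : L) = 1 := by
    have := congrArg Units.val hN
    simpa using this
  obtain ⟨y0, hy0⟩ := groupCohomology.exists_div_of_norm_eq_one hσ hN'
  -- `y = y0⁻¹` satisfies `σ y / y = ε`
  set y : Lˣ := y0⁻¹ with hy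
  have hεy : ε = Units.map (σ : L →* L) y / y := by
    ext
    rw [← hy0]
    simp [hy]
    field_simp
  -- all `τ y / y` are `T`-units
  have hall : ∀ τ : L ≃ₐ[k] L, Units.map (τ : L →* L) y / y ∈ (above L T).unit L := by
    intro τ
    have h1 : σ ∈ h1Sub T y := by
      change Units.map (σ : L →* L) y / y ∈ (above L T).unit L
      rw [← hεy]; exact hε
    have h2 : Subgroup.zpowers σ ≤ h1Sub T y := (Subgroup.zpowers_le).2 h1
    exact h2 (hσ τ)
  have hval : ∀ (τ : L ≃ₐ[k] L) (w : HeightOneSpectrum (𝓞 L)), w ∉ above L T →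
      w.valuation L (τ (y : L)) = w.valuation L (y : L) := by
    intro τ w hw
    have h := (hall τ) w hw
    have h3 : ((Units.map (τ : L →* L) y / y : Lˣ) : L) = τ (y : L) / (y : L) := by simp
    rw [h3, map_div₀, div_eq_one_iff_eq (by simp)] at h
    exact h
  -- choice of a prime above each prime
  choose W hW using fun v : HeightOneSpectrum (𝓞 k) => exists_under_eq (L := L) v
  -- the exponents
  have hfin : {v : HeightOneSpectrum (𝓞 k) |
      Multiplicative.toAdd ((W v).valuationOfNeZero y) ≠ 0}.Finite := by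
    refine ((h1_finite_valuation_ne_one y).image (fun w => w.under (𝓞 k))).subset ?_
    intro v hv
    refine ⟨W v, ?_, hW v⟩
    intro h
    apply hv
    have h4 : ((W v).valuationOfNeZero y : WithZero (Multiplicative ℤ)) = 1 := by
      rw [HeightOneSpectrum.valuationOfNeZero_eq]; exact h
    have h5 : (W v).valuationOfNeZero y = 1 := by exact_mod_cast h4
    rw [h5]; rfl
  let a : HeightOneSpectrum (𝓞 k) →₀ ℤ :=
    Finsupp.ofSupportFinite (fun v => Multiplicative.toAdd ((W v).valuationOfNeZero y)) hfin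
  obtain ⟨c, hc⟩ := hcl a
  refine ⟨y / Units.map (algebraMap k L : k →* L) c, ?_, ?_⟩
  · intro w hw
    have hv : w.under (𝓞 k) ∉ T := hw
    set v := w.under (𝓞 k) with hvdef
    have hcv : v.valuation k (c : k) = (W v).valuation L (y : L) := by
      rw [← HeightOneSpectrum.valuationOfNeZero_eq, ← HeightOneSpectrum.valuationOfNeZero_eq,
        hc v hv]
      rfl
    have : w.asIdeal.LiesOver v.asIdeal := ⟨rfl⟩
    have hwc : w.valuation L (algebraMap k L (c : k)) = v.valuation k (c : k) := by
      rw [← HeightOneSpectrum.valuation_liesOver L v w, hram w hv, pow_one]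
    obtain ⟨τ, hτ⟩ := exists_galComap_eq (k := k) (W v) w (by rw [hW v])
    have hWv : W v ∉ above L T := by
      change (W v).under (𝓞 k) ∉ T
      rw [hW v]; exact hv
    have hwy : w.valuation L (y : L) = (W v).valuation L (y : L) := by
      rw [← hτ, valuation_galComap, hval τ _ hWv]
    have h6 : ((y / Units.map (algebraMap k L : k →* L) c : Lˣ) : L)
        = (y : L) / algebraMap k L (c : k) := by simp
    rw [h6, map_div₀, hwc, hcv, hwy]
    exact div_self (by simp)
  · rw [hεy]
    ext
    simp
    field_simp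

end Fermat.Agent.S55.H
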